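import Fermat.Agent.S24.Comb.Elliptic

/-! # S24 / Comb / package C-g : assembly of the combinatorial block -/

set_option autoImplicit false

namespace Fermat.Agent.S24.Comb

open CongruenceSubgroup ModularGroup Matrix.SpecialLinearGroup MatrixGroups ModularCurve

theorem finite_X' (N : ℕ) [NeZero N] : Finite (X N) :=
  Subgroup.finite_quotient_of_finiteIndex

/-- (C1) -/
theorem card_X (N : ℕ) [NeZero N] : Nat.card (X N) = dedekindPsi N :=
  Fermat.Agent.Lib.Gamma0Cosets.card_quotient N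

/-- (C4) -/
theorem orbCount_T (N : ℕ) [NeZero N] : orbCount (X N) (T : SL(2, ℤ)) = cuspCount N :=
  Fermat.Agent.Lib.Gamma0Cosets.card_orbits_T N

/-- (C2) -/
theorem two_mul_orbCount_S (N : ℕ) [NeZero N] :
    2 * orbCount (X N) (S : SL(2, ℤ)) = dedekindPsi N + nuTwo N := by
  haveI := finite_X' N
  rw [two_mul_orbCount (S : SL(2, ℤ)) (S_smul_S_smul N), card_X, card_fixedBy_S]

/-- (C3) -/
theorem three_mul_orbCount_ST (N : ℕ) [NeZero N] :
    3 * orbCount (X N) (S * T : SL(2, ℤ)) = dedekindPsi N + 2 * nuThree N := by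
  haveI := finite_X' N
  rw [three_mul_orbCount (S * T : SL(2, ℤ)) (ST_smul_cube N), card_X, card_fixedBy_ST]

/-- existence of the genus as a natural number. -/
theorem exists_genus (N : ℕ) [NeZero N] :
    ∃ g : ℕ, 2 * g + orbCount (X N) (S : SL(2, ℤ)) + orbCount (X N) (T : SL(2, ℤ)) +
      orbCount (X N) (S * T : SL(2, ℤ)) = dedekindPsi N + 2 := by
  obtain ⟨g, hg⟩ := Fermat.Agent.Lib.ScottRee.exists_genus_SL2Z (Gamma0 N)
  refine ⟨g, ?_⟩
  rw [← card_X N]
  exact hg

/-- the genus formula takes a natural number value, given by the orbit counts. -/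
theorem genusFormula_eq (N : ℕ) [NeZero N] {g : ℕ}
    (hg : 2 * g + orbCount (X N) (S : SL(2, ℤ)) + orbCount (X N) (T : SL(2, ℤ)) +
      orbCount (X N) (S * T : SL(2, ℤ)) = dedekindPsi N + 2) :
    (g : ℚ) = genusFormula N := by
  have h2 := two_mul_orbCount_S N
  have h3 := three_mul_orbCount_ST N
  have hT := orbCount_T N
  have hg' : (2 * g + orbCount (X N) (S : SL(2, ℤ)) + orbCount (X N) (T : SL(2, ℤ)) +
      orbCount (X N) (S * T : SL(2, ℤ)) : ℚ) = dedekindPsi N + 2 := by exact_mod_cast hg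
  have h2' : (2 * orbCount (X N) (S : SL(2, ℤ)) : ℚ) = dedekindPsi N + nuTwo N := by
    exact_mod_cast h2
  have h3' : (3 * orbCount (X N) (S * T : SL(2, ℤ)) : ℚ) = dedekindPsi N + 2 * nuThree N := by
    exact_mod_cast h3
  have hT' : (orbCount (X N) (T : SL(2, ℤ)) : ℚ) = cuspCount N := by exact_mod_cast hT
  rw [genusFormula]
  linarith

/-- The statement consumed by the final assembly of S24. -/
theorem genus_arith (N : ℕ) [NeZero N] :
    (((-2 * (dedekindPsi N : ℤ)
      + (((dedekindPsi N : ℤ) - (orbCount (X N) (S * T : SL(2, ℤ)) : ℤ))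
          + ((dedekindPsi N : ℤ) - (orbCount (X N) (S : SL(2, ℤ)) : ℤ)))
      + ((dedekindPsi N : ℤ) - (orbCount (X N) (T : SL(2, ℤ)) : ℤ)) + 2).toNat / 2 : ℕ) : ℚ)
      = genusFormula N := by
  obtain ⟨g, hg⟩ := exists_genus N
  rw [← genusFormula_eq N hg]
  have : (-2 * (dedekindPsi N : ℤ)
      + (((dedekindPsi N : ℤ) - (orbCount (X N) (S * T : SL(2, ℤ)) : ℤ))
          + ((dedekindPsi N : ℤ) - (orbCount (X N) (S : SL(2, ℤ)) : ℤ)))
      + ((dedekindPsi N : ℤ) - (orbCount (X N) (T : SL(2, ℤ)) : ℤ)) + 2) = ((2 * g : ℕ) : ℤ) := by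
    push_cast
    have hg' : (2 * (g : ℤ) + orbCount (X N) (S : SL(2, ℤ)) + orbCount (X N) (T : SL(2, ℤ)) +
      orbCount (X N) (S * T : SL(2, ℤ)) : ℤ) = dedekindPsi N + 2 := by exact_mod_cast hg
    linarith
  rw [this, Int.toNat_natCast, Nat.mul_div_cancel_left g (by norm_num)]

end Fermat.Agent.S24.Comb
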