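import Mathlib
import Fermat.Prelude.Def_ModularCurve_GenusNumerics

/-!
# S24 / Comb : combinatorics of `X N = SL(2,ℤ) ⧸ Γ₀(N)` (left cosets, left multiplication action)

Shared definitions. Do not edit without telling helper83.
-/

set_option autoImplicit false

namespace Fermat.Agent.S24.Comb

open CongruenceSubgroup ModularGroup Matrix.SpecialLinearGroup MatrixGroups

/-- The coset space. `SL(2,ℤ)` acts on it by left multiplication (Mathlib instance). -/
abbrev X (N : ℕ) : Type := SL(2, ℤ) ⧸ Gamma0 N

/-- Number of orbits of the cyclic group generated by `g` on `α`. -/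
noncomputable def orbCount {G : Type*} [Group G] (α : Type*) [MulAction G α] (g : G) : ℕ :=
  Nat.card (MulAction.orbitRel.Quotient (Subgroup.zpowers g) α)

/-- Explicit model of `X N`: pairs `(δ, b)` with `δ ∣ N`, `0 ≤ b < N/δ`, `b` prime to
`gcd δ (N/δ)`. The class of `γ` with first column `(a, c)` corresponds to `δ = gcd c N`,
`b = a * (c/δ)⁻¹ mod N/δ`; equivalently `(b', δ)` is proportional to `(a, c)` mod `N` for any lift
`b'` of `b` prime to `δ`. -/
def Model (N : ℕ) : Type :=
  {p : ℕ × ℕ // p.1 ∣ N ∧ p.2 < N / p.1 ∧ Nat.Coprime p.2 (Nat.gcd p.1 (N / p.1))}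

end Fermat.Agent.S24.Comb
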