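import Fermat.Agent.S24.Comb.Defs
import Fermat.Agent.Lib.Gamma0Cosets
import Fermat.Agent.Lib.ScottRee

/-! # S24 / Comb / package C-d : fixed points of the elliptic elements `S`, `S*T`; orbit counts -/

set_option autoImplicit false

namespace Fermat.Agent.S24.Comb

open CongruenceSubgroup ModularGroup Matrix.SpecialLinearGroup MatrixGroups ModularCurve

/-- `γ Γ₀(N)` is fixed by `S` iff `a^2 + c^2 ≡ 0 (N)`; then `c` is a unit and `x = a/c`. -/
theorem card_fixedBy_S (N : ℕ) [NeZero N] :
    Nat.card (MulAction.fixedBy (X N) (S : SL(2, ℤ))) = nuTwo N :=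
  Fermat.Agent.Lib.Gamma0Cosets.card_fixedBy_S N

theorem card_fixedBy_ST (N : ℕ) [NeZero N] :
    Nat.card (MulAction.fixedBy (X N) (S * T : SL(2, ℤ))) = nuThree N :=
  Fermat.Agent.Lib.Gamma0Cosets.card_fixedBy_ST N

theorem orbCount_eq_orb {G α : Type*} [Group G] [MulAction G α] (g : G) :
    orbCount α g = Fermat.Agent.Lib.ScottRee.orb α g := rfl

/-- general: if `g ^ p` acts trivially, `p` prime. -/
theorem prime_mul_orbCount {G α : Type*} [Group G] [MulAction G α] [Finite α] (g : G) {p : ℕ}
    (hp : p.Prime) (hg : ∀ x : α, g ^ p • x = x) :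
    p * orbCount α g = Nat.card α + (p - 1) * Nat.card (MulAction.fixedBy α g) := by
  classical
  have := Fintype.ofFinite α
  set σ : Equiv.Perm α := MulAction.toPerm g with hσ
  have hpow : σ ^ p = 1 := by
    ext x
    have : (σ ^ p) x = g ^ p • x := by
      rw [hσ, ← MulAction.toPermHom_apply, ← map_pow]
      rfl
    rw [this, hg]; rfl
  have hall : ∀ n ∈ σ.cycleType, n = p := by
    intro n hn
    have h1 : n ∣ p := (Equiv.Perm.dvd_of_mem_cycleType hn).trans (orderOf_dvd_of_pow_eq_one hpow)
    have h2 : 2 ≤ n := Equiv.Perm.two_le_of_mem_cycleType hn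
    rcases (Nat.dvd_prime hp).mp h1 with h | h
    · omega
    · exact h
  have hsum : σ.cycleType.sum = Multiset.card σ.cycleType * p := by
    rw [Multiset.eq_replicate_card.mpr hall]
    simp
  have horb := Fermat.Agent.Lib.ScottRee.orb_add_sum_cycleType (X := α) g
  rw [← hσ] at horb
  have hsupp : σ.cycleType.sum = σ.support.card := Equiv.Perm.sum_cycleType σ
  have hfix : Nat.card (MulAction.fixedBy α g) + σ.support.card = Fintype.card α := by
    have h1 : (MulAction.fixedBy α g) = ((σ.supportᶜ : Finset α) : Set α) := by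
      ext x
      simp [hσ, MulAction.mem_fixedBy, Equiv.Perm.mem_support]
    rw [h1, Nat.card_coe_set_eq, Set.ncard_coe_finset, Finset.card_compl]
    have := Finset.card_le_univ σ.support
    omega
  rw [orbCount_eq_orb, Nat.card_eq_fintype_card]
  set c := Multiset.card σ.cycleType
  set o := Fermat.Agent.Lib.ScottRee.orb α g
  set f := Nat.card (MulAction.fixedBy α g)
  set n := Fintype.card α
  obtain ⟨q, rfl⟩ : ∃ q, p = q + 1 := ⟨p - 1, (Nat.succ_pred_eq_of_pos hp.pos).symm⟩
  simp only [Nat.add_sub_cancel]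
  -- o + c (q+1) = n + c,  f + c (q+1) = n
  have e1 : o + c * (q + 1) = n + c := by rw [← hsum]; exact horb
  have e2 : f + c * (q + 1) = n := by rw [← hsum, hsupp]; exact hfix
  nlinarith [e1, e2]

/-- general: if `g^2` acts trivially. -/
theorem two_mul_orbCount {G α : Type*} [Group G] [MulAction G α] [Finite α] (g : G)
    (hg : ∀ x : α, g • g • x = x) :
    2 * orbCount α g = Nat.card α + Nat.card (MulAction.fixedBy α g) := by
  have h := prime_mul_orbCount (α := α) g Nat.prime_two (fun x => by rw [pow_two, mul_smul, hg])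
  simpa using h

/-- general: if `g^3` acts trivially. -/
theorem three_mul_orbCount {G α : Type*} [Group G] [MulAction G α] [Finite α] (g : G)
    (hg : ∀ x : α, g • g • g • x = x) :
    3 * orbCount α g = Nat.card α + 2 * Nat.card (MulAction.fixedBy α g) := by
  have h := prime_mul_orbCount (α := α) g Nat.prime_three
    (fun x => by rw [pow_succ, pow_two, mul_smul, mul_smul, hg])
  simpa using h

theorem neg_one_smul (N : ℕ) (x : X N) : (-1 : SL(2, ℤ)) • x = x := by
  induction x using QuotientGroup.induction_on with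
  | H g =>
    rw [MulAction.Quotient.smul_mk, smul_eq_mul, QuotientGroup.eq, Gamma0_mem]
    simp

theorem S_smul_S_smul (N : ℕ) (x : X N) : (S : SL(2, ℤ)) • (S : SL(2, ℤ)) • x = x := by
  rw [← mul_smul, show (S * S : SL(2, ℤ)) = -1 by decide]
  exact neg_one_smul N x

theorem ST_smul_cube (N : ℕ) (x : X N) :
    (S * T : SL(2, ℤ)) • (S * T : SL(2, ℤ)) • (S * T : SL(2, ℤ)) • x = x := by
  rw [← mul_smul, ← mul_smul]
  rw [show (S * T * (S * T) * (S * T) : SL(2, ℤ)) = -1 by decide]
  exact neg_one_smul N x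

end Fermat.Agent.S24.Comb
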