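import Fermat.Agent.S24.Comb.Defs
import Fermat.Agent.Lib.Gamma0Comb.Coset

/-! # S24 / Comb / package C-a : the explicit model of `SL(2,ℤ) ⧸ Γ₀(N)` -/

set_option autoImplicit false

namespace Fermat.Agent.S24.Comb

open CongruenceSubgroup ModularGroup Matrix.SpecialLinearGroup MatrixGroups

/-- coset equality criterion: first columns are proportional mod `N`. -/
theorem mk_eq_mk_iff (N : ℕ) (γ γ' : SL(2, ℤ)) :
    (QuotientGroup.mk γ : X N) = QuotientGroup.mk γ' ↔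
      (N : ℤ) ∣ γ 0 0 * γ' 1 0 - γ 1 0 * γ' 0 0 :=
  Fermat.Agent.Lib.Gamma0Comb.mk_eq_mk_iff N γ γ'

theorem Model.exists_rep {N : ℕ} [NeZero N] (p : Model N) :
    ∃ g : SL(2, ℤ), g 1 0 = p.1.1 ∧ ((N / p.1.1 : ℕ) : ℤ) ∣ g 0 0 - p.1.2 := by
  obtain ⟨⟨δ, b⟩, h1, h2, h3⟩ := p
  have hδ0 : δ ≠ 0 := by
    rintro rfl
    exact NeZero.ne N (Nat.eq_zero_of_zero_dvd h1)
  exact Fermat.Agent.Lib.Gamma0Comb.exists_rep hδ0 (Nat.isCoprime_iff_coprime.mpr h3)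

/-- A chosen representative of the coset attached to a point of the model. -/
noncomputable def Model.rep {N : ℕ} [NeZero N] (p : Model N) : SL(2, ℤ) :=
  Classical.choose p.exists_rep

theorem Model.rep_one_zero {N : ℕ} [NeZero N] (p : Model N) : p.rep 1 0 = p.1.1 :=
  (Classical.choose_spec p.exists_rep).1

theorem Model.dvd_rep_zero_zero_sub {N : ℕ} [NeZero N] (p : Model N) :
    ((N / p.1.1 : ℕ) : ℤ) ∣ p.rep 0 0 - p.1.2 :=
  (Classical.choose_spec p.exists_rep).2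

/-- The parametrisation of the coset space by the model. -/
noncomputable def Model.toX {N : ℕ} [NeZero N] (p : Model N) : X N :=
  QuotientGroup.mk p.rep

/-- Characterisation of the model point of a coset given by a normalised representative. -/
theorem Model.toX_eq_mk_iff {N : ℕ} [NeZero N] (p : Model N) {g : SL(2, ℤ)} {δ : ℕ}
    (hδ : δ ∣ N) (hg : g 1 0 = δ) :
    p.toX = QuotientGroup.mk g ↔ p.1.1 = δ ∧ ((N / δ : ℕ) : ℤ) ∣ g 0 0 - p.1.2 := by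
  constructor
  · intro h
    obtain ⟨h1, h2⟩ := Fermat.Agent.Lib.Gamma0Comb.rep_unique (NeZero.ne N) p.2.1 hδ
      p.rep_one_zero hg h
    refine ⟨h1, ?_⟩
    have h3 := p.dvd_rep_zero_zero_sub
    rw [h1] at h2 h3
    have : g 0 0 - (p.1.2 : ℤ) = (p.rep 0 0 - p.1.2) - (p.rep 0 0 - g 0 0) := by ring
    rw [this]
    exact dvd_sub h3 h2
  · rintro ⟨h1, h2⟩
    have h3 := p.dvd_rep_zero_zero_sub
    rw [h1] at h3
    refine Fermat.Agent.Lib.Gamma0Comb.mk_eq_mk_of_rep (Nat.mul_div_cancel' hδ)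
      (by rw [p.rep_one_zero, h1]) hg ?_
    have : p.rep 0 0 - g 0 0 = (p.rep 0 0 - p.1.2) - (g 0 0 - p.1.2) := by ring
    rw [this]
    exact dvd_sub h3 h2

theorem Model.ext_of_dvd {N : ℕ} {p q : Model N} (h1 : p.1.1 = q.1.1)
    (h2 : ((N / p.1.1 : ℕ) : ℤ) ∣ (p.1.2 : ℤ) - q.1.2) : p = q := by
  obtain ⟨⟨δ, b⟩, hp1, hp2, hp3⟩ := p
  obtain ⟨⟨δ', b'⟩, hq1, hq2, hq3⟩ := q
  simp only at h1 h2 hp2 hq2
  subst h1
  have h3 : (b' : ℤ) ≡ b [ZMOD ((N / δ : ℕ) : ℤ)] := (Int.modEq_iff_dvd).mpr h2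
  have h4 : b' ≡ b [MOD (N / δ)] := (Int.natCast_modEq_iff).mp h3
  have h5 : b' = b := Nat.ModEq.eq_of_lt_of_lt h4 hq2 hp2
  subst h5
  rfl

theorem Model.toX_injective (N : ℕ) [NeZero N] : Function.Injective (Model.toX (N := N)) := by
  intro p q h
  obtain ⟨h1, h2⟩ := (p.toX_eq_mk_iff q.2.1 q.rep_one_zero).mp h
  refine Model.ext_of_dvd h1 ?_
  have h3 := q.dvd_rep_zero_zero_sub
  rw [← h1] at h2 h3
  have : (p.1.2 : ℤ) - q.1.2 = (q.rep 0 0 - q.1.2) - (q.rep 0 0 - p.1.2) := by ring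
  rw [this]
  exact dvd_sub h3 h2

theorem Model.toX_surjective (N : ℕ) [NeZero N] : Function.Surjective (Model.toX (N := N)) := by
  intro x
  obtain ⟨g, δ, hδ, hg, rfl⟩ := Fermat.Agent.Lib.Gamma0Comb.exists_rep_of_coset (NeZero.ne N) x
  have hN : 0 < N := Nat.pos_of_ne_zero (NeZero.ne N)
  have he : 0 < N / δ := Nat.div_pos (Nat.le_of_dvd hN hδ) (Nat.pos_of_dvd_of_pos hδ hN)
  have he' : (0 : ℤ) < ((N / δ : ℕ) : ℤ) := by exact_mod_cast he
  have hb0 : 0 ≤ g 0 0 % ((N / δ : ℕ) : ℤ) := Int.emod_nonneg _ he'.ne'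
  have hb1 : g 0 0 % ((N / δ : ℕ) : ℤ) < ((N / δ : ℕ) : ℤ) := Int.emod_lt_of_pos _ he'
  obtain ⟨b, hb⟩ := Int.eq_ofNat_of_zero_le hb0
  have hdvd : ((N / δ : ℕ) : ℤ) ∣ g 0 0 - b := by
    rw [← hb]
    exact Int.dvd_self_sub_emod
  have hcop : Nat.Coprime b (Nat.gcd δ (N / δ)) := by
    rw [← Nat.isCoprime_iff_coprime]
    have h1 : IsCoprime (g 0 0) ((Nat.gcd δ (N / δ) : ℕ) : ℤ) := by
      have := Fermat.Agent.Lib.Gamma0Comb.isCoprime_col g
      rw [hg] at this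
      exact this.of_isCoprime_of_dvd_right (Int.natCast_dvd_natCast.mpr (Nat.gcd_dvd_left _ _))
    obtain ⟨k, hk⟩ := (Int.natCast_dvd_natCast.mpr (Nat.gcd_dvd_right δ (N / δ))).trans hdvd
    have h2 : (b : ℤ) = g 0 0 + ((Nat.gcd δ (N / δ) : ℕ) : ℤ) * (-k) := by linear_combination -hk
    rw [h2]
    exact (IsCoprime.add_mul_left_left_iff).mpr h1
  refine ⟨⟨(δ, b), hδ, ?_, hcop⟩, ?_⟩
  · have : (b : ℤ) < ((N / δ : ℕ) : ℤ) := by rw [← hb]; exact hb1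
    exact_mod_cast this
  · exact (Model.toX_eq_mk_iff _ hδ hg).mpr ⟨rfl, hdvd⟩

/-- The bijection between the model and the coset space. -/
noncomputable def Model.equivX (N : ℕ) [NeZero N] : Model N ≃ X N :=
  Equiv.ofBijective Model.toX ⟨Model.toX_injective N, Model.toX_surjective N⟩

theorem finite_Model (N : ℕ) [NeZero N] : Finite (Model N) := by
  have : Function.Injective (fun p : Model N => ((⟨p.1.1, Nat.lt_succ_of_le (Nat.le_of_dvd
      (Nat.pos_of_ne_zero (NeZero.ne N)) p.2.1)⟩, ⟨p.1.2, lt_of_lt_of_le p.2.2.1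
      ((Nat.div_le_self _ _).trans (Nat.le_succ _))⟩) : Fin (N + 1) × Fin (N + 1))) := by
    intro p q h
    simp only [Prod.mk.injEq, Fin.mk.injEq] at h
    exact Subtype.ext (Prod.ext h.1 h.2)
  exact Finite.of_injective _ this

theorem finite_X (N : ℕ) [NeZero N] : Finite (X N) := by
  have := finite_Model N
  exact Finite.of_equiv _ (Model.equivX N)

theorem T_mul_apply_zero_zero (g : SL(2, ℤ)) : ((T : SL(2, ℤ)) * g) 0 0 = g 0 0 + g 1 0 := by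
  rw [Matrix.SpecialLinearGroup.coe_mul, coe_T]
  simp [Matrix.mul_apply, Fin.sum_univ_two]

theorem T_mul_apply_one_zero (g : SL(2, ℤ)) : ((T : SL(2, ℤ)) * g) 1 0 = g 1 0 := by
  rw [Matrix.SpecialLinearGroup.coe_mul, coe_T]
  simp [Matrix.mul_apply, Fin.sum_univ_two]

/-- The model, with the action of `T` : `(δ, b) ↦ (δ, (b + δ) mod N/δ)`. -/
theorem exists_model (N : ℕ) [NeZero N] :
    ∃ Φ : X N ≃ Model N, ∀ x : X N,
      (Φ ((T : SL(2, ℤ)) • x)).1 = ((Φ x).1.1, ((Φ x).1.2 + (Φ x).1.1) % (N / (Φ x).1.1)) := by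
  refine ⟨(Model.equivX N).symm, fun x => ?_⟩
  obtain ⟨p, rfl⟩ := (Model.equivX N).surjective x
  rw [Equiv.symm_apply_apply]
  set q := (Model.equivX N).symm ((T : SL(2, ℤ)) • (Model.equivX N) p) with hq
  have h1 : q.toX = QuotientGroup.mk ((T : SL(2, ℤ)) * p.rep) := by
    have : (Model.equivX N) q = (T : SL(2, ℤ)) • (Model.equivX N) p := by
      rw [hq, Equiv.apply_symm_apply]
    exact this
  obtain ⟨h2, h3⟩ := (q.toX_eq_mk_iff p.2.1
    (by rw [T_mul_apply_one_zero, p.rep_one_zero])).mp h1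
  rw [T_mul_apply_zero_zero, p.rep_one_zero] at h3
  have h4 := p.dvd_rep_zero_zero_sub
  have h5 : ((N / p.1.1 : ℕ) : ℤ) ∣ ((p.1.2 + p.1.1 : ℕ) : ℤ) - q.1.2 := by
    have : ((p.1.2 + p.1.1 : ℕ) : ℤ) - q.1.2
        = (p.rep 0 0 + p.1.1 - q.1.2) - (p.rep 0 0 - p.1.2) := by
      push_cast; ring
    rw [this]
    exact dvd_sub h3 h4
  have h6 : q.1.2 ≡ p.1.2 + p.1.1 [MOD (N / p.1.1)] :=
    (Int.natCast_modEq_iff).mp ((Int.modEq_iff_dvd).mpr h5)
  have h7 : q.1.2 < N / p.1.1 := by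
    have := q.2.2.1
    rwa [h2] at this
  refine Prod.ext h2 ?_
  show q.1.2 = (p.1.2 + p.1.1) % (N / p.1.1)
  rw [← h6, Nat.mod_eq_of_lt h7]

end Fermat.Agent.S24.Comb
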